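import Mathlib

/-!
# Taylor power series at `0` of functions `ℂ → ℂ`

A small toolkit relating analytic functions near `0` to formal power series: the Taylor
power series `taylorPS G`, its multiplicativity, its behaviour under locally uniform limits,
and the link with `UpperHalfPlane.qExpansion` (which is the Taylor series of the cusp function).
-/

set_option autoImplicit false

noncomputable section

namespace Fermat.Agent.S24.H76

open Filter Topology

/-- The Taylor power series at `0` of a function `ℂ → ℂ`. -/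
def taylorPS (G : ℂ → ℂ) : PowerSeries ℂ :=
  PowerSeries.mk fun m => (m.factorial : ℂ)⁻¹ * iteratedDeriv m G 0

@[simp] theorem coeff_taylorPS (G : ℂ → ℂ) (m : ℕ) :
    (taylorPS G).coeff m = (m.factorial : ℂ)⁻¹ * iteratedDeriv m G 0 := by
  simp [taylorPS]

theorem taylorPS_congr {G H : ℂ → ℂ} (h : G =ᶠ[𝓝 0] H) : taylorPS G = taylorPS H := by
  ext m
  rw [coeff_taylorPS, coeff_taylorPS, h.iteratedDeriv_eq m]

theorem qExpansion_eq_taylorPS (h : ℝ) (f : UpperHalfPlane → ℂ) :
    UpperHalfPlane.qExpansion h f = taylorPS (UpperHalfPlane.cuspFunction h f) := by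
  ext m
  rw [UpperHalfPlane.qExpansion_coeff, coeff_taylorPS]

theorem taylorPS_mul {G H : ℂ → ℂ} (hG : AnalyticAt ℂ G 0) (hH : AnalyticAt ℂ H 0) :
    taylorPS (G * H) = taylorPS G * taylorPS H := by
  ext m
  simp only [coeff_taylorPS, iteratedDeriv_mul hG.contDiffAt hH.contDiffAt, Finset.mul_sum,
    PowerSeries.coeff_mul, Finset.Nat.sum_antidiagonal_eq_sum_range_succ_mk, Nat.succ_eq_add_one]
  refine Finset.sum_congr rfl fun i hi ↦ ?_
  rw [Nat.cast_choose _ (by grind)]
  field_simp [Nat.factorial_ne_zero]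

theorem taylorPS_add {G H : ℂ → ℂ} (hG : AnalyticAt ℂ G 0) (hH : AnalyticAt ℂ H 0) :
    taylorPS (G + H) = taylorPS G + taylorPS H := by
  ext m
  simp [coeff_taylorPS, iteratedDeriv_add hG.contDiffAt hH.contDiffAt, mul_add]

theorem taylorPS_const (c : ℂ) : taylorPS (fun _ => c) = PowerSeries.C c := by
  ext m
  rw [coeff_taylorPS, iteratedDeriv_const, PowerSeries.coeff_C]
  split_ifs with h
  · subst h; simp
  · simp

theorem taylorPS_one : taylorPS (1 : ℂ → ℂ) = 1 := by
  have : (1 : ℂ → ℂ) = fun _ => (1 : ℂ) := rfl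
  rw [this, taylorPS_const]
  simp

theorem taylorPS_smul (c : ℂ) (G : ℂ → ℂ) : taylorPS (c • G) = c • taylorPS G := by
  ext m
  simp [coeff_taylorPS, iteratedDeriv_const_smul_field, mul_left_comm]

theorem taylorPS_neg (G : ℂ → ℂ) : taylorPS (-G) = -taylorPS G := by
  have : -G = (-1 : ℂ) • G := by ext; simp
  rw [this, taylorPS_smul]
  simp

theorem taylorPS_sub {G H : ℂ → ℂ} (hG : AnalyticAt ℂ G 0) (hH : AnalyticAt ℂ H 0) :
    taylorPS (G - H) = taylorPS G - taylorPS H := by
  rw [sub_eq_add_neg, taylorPS_add hG hH.neg, taylorPS_neg, sub_eq_add_neg]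

theorem taylorPS_id : taylorPS (fun q : ℂ => q) = PowerSeries.X := by
  ext m
  rw [coeff_taylorPS, iteratedDeriv_fun_id_zero, PowerSeries.coeff_X]
  split_ifs with h
  · subst h; simp
  · simp

theorem taylorPS_pow {G : ℂ → ℂ} (hG : AnalyticAt ℂ G 0) (n : ℕ) :
    taylorPS (G ^ n) = taylorPS G ^ n := by
  induction n with
  | zero => simpa using taylorPS_one
  | succ n ih => rw [pow_succ, taylorPS_mul (hG.pow n) hG, ih, pow_succ]

theorem taylorPS_prod {ι : Type*} (s : Finset ι) (G : ι → ℂ → ℂ)
    (hG : ∀ i ∈ s, AnalyticAt ℂ (G i) 0) :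
    taylorPS (∏ i ∈ s, G i) = ∏ i ∈ s, taylorPS (G i) := by
  classical
  induction s using Finset.induction_on with
  | empty => simpa using taylorPS_one
  | insert a s ha ih =>
    rw [Finset.prod_insert ha, Finset.prod_insert ha,
      taylorPS_mul (hG a (Finset.mem_insert_self a s))
        (Finset.analyticAt_prod _ fun i hi => hG i (Finset.mem_insert_of_mem hi)),
      ih fun i hi => hG i (Finset.mem_insert_of_mem hi)]

/-- The Taylor series of a function differentiable on a ball around `0` converges to it. -/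
theorem hasSum_taylorPS {G : ℂ → ℂ} {r : ℝ} (hG : DifferentiableOn ℂ G (Metric.ball 0 r))
    {z : ℂ} (hz : z ∈ Metric.ball (0 : ℂ) r) :
    HasSum (fun m : ℕ => (taylorPS G).coeff m * z ^ m) (G z) := by
  have h := Complex.hasSum_taylorSeries_on_ball hG hz
  have e : (fun m : ℕ => (taylorPS G).coeff m * z ^ m) =
      fun n : ℕ => (n.factorial : ℂ)⁻¹ • (z - 0) ^ n • iteratedDeriv n G 0 := by
    funext m
    rw [coeff_taylorPS, sub_zero, smul_eq_mul, smul_eq_mul]
    ring
  rw [e]
  exact h

/-- Iterated derivatives pass to locally uniform limits of holomorphic functions. -/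
theorem tendstoLocallyUniformlyOn_iteratedDeriv {U : Set ℂ} (hU : IsOpen U)
    {F : ℕ → ℂ → ℂ} {G : ℂ → ℂ} (hconv : TendstoLocallyUniformlyOn F G atTop U)
    (hF : ∀ n, DifferentiableOn ℂ (F n) U) (m : ℕ) :
    TendstoLocallyUniformlyOn (fun n => iteratedDeriv m (F n)) (iteratedDeriv m G) atTop U ∧
      ∀ n, DifferentiableOn ℂ (iteratedDeriv m (F n)) U := by
  induction m with
  | zero =>
    refine ⟨?_, fun n => ?_⟩
    · simpa [iteratedDeriv_zero] using hconv
    · simpa [iteratedDeriv_zero] using hF n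
  | succ m ih =>
    obtain ⟨h1, h2⟩ := ih
    refine ⟨?_, fun n => ?_⟩
    · have := h1.deriv (Eventually.of_forall h2) hU
      simpa only [iteratedDeriv_succ, Function.comp_def] using this
    · rw [iteratedDeriv_succ]
      exact (h2 n).deriv hU

/-- Taylor coefficients pass to locally uniform limits of holomorphic functions. -/
theorem tendsto_coeff_taylorPS {U : Set ℂ} (hU : IsOpen U) (h0 : (0 : ℂ) ∈ U)
    {F : ℕ → ℂ → ℂ} {G : ℂ → ℂ} (hconv : TendstoLocallyUniformlyOn F G atTop U)
    (hF : ∀ n, DifferentiableOn ℂ (F n) U) (m : ℕ) :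
    Tendsto (fun n => (taylorPS (F n)).coeff m) atTop (𝓝 ((taylorPS G).coeff m)) := by
  have h := ((tendstoLocallyUniformlyOn_iteratedDeriv hU hconv hF m).1).tendsto_at h0
  simp only [coeff_taylorPS]
  exact h.const_mul _

end Fermat.Agent.S24.H76

end
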