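import Mathlib
import Fermat.Prelude.Def_ModularCurve_X0
import Fermat.Agent.S24.H76.TaylorPS

/-!
# The analytic ↔ formal bridge for `E₄` and `Δ`

* `qExpansion_E4` : the `q`-expansion of `E₄` is the Prelude's formal series `eisenstein4`.
* `qExpansion_discriminant` : the `q`-expansion of `Δ` is `X * etaProd ^ 24`, the Prelude's
  formal infinite product `∏ (1 - X ^ (n + 1))` taken in the `Pi` topology.
-/

set_option autoImplicit false

noncomputable section

namespace Fermat.Agent.S24.H76

open Filter Topology UpperHalfPlane ModularForm ModularFormClass EisensteinSeries MatrixGroups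
open ModularCurve
open scoped PowerSeries.WithPiTopology

/-- **(B1)** The `q`-expansion of `E₄` is the formal series `eisenstein4`. -/
theorem qExpansion_E4 :
    qExpansion 1 E₄ = ModularCurve.eisenstein4.map (Int.castRingHom ℂ) := by
  ext n
  rw [E_qExpansion_coeff (by norm_num) ⟨2, rfl⟩]
  simp only [eisenstein4, PowerSeries.coeff_map, PowerSeries.coeff_mk]
  split_ifs with h
  · simp
  · rw [ArithmeticFunction.sigma_apply]
    norm_num [show bernoulli 4 = -1 / 30 by decide +kernel]

/-! ### The formal partial products -/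

/-- The finite partial products of the formal eta product. -/
def etaPart (M : ℕ) : PowerSeries ℤ := ∏ n ∈ Finset.range M, (1 - PowerSeries.X ^ (n + 1))

theorem coeff_etaPart_succ {m M : ℕ} (h : m ≤ M) :
    (etaPart (M + 1)).coeff m = (etaPart M).coeff m := by
  rw [etaPart, Finset.prod_range_succ, ← etaPart, mul_sub, mul_one, map_sub,
    PowerSeries.coeff_mul_X_pow', if_neg (by omega), sub_zero]

theorem coeff_etaPart_of_le {m M M' : ℕ} (h : m ≤ M) (h' : M ≤ M') :
    (etaPart M').coeff m = (etaPart M).coeff m := by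
  induction M', h' using Nat.le_induction with
  | base => rfl
  | succ k hk ih => rw [coeff_etaPart_succ (h.trans hk), ih]

theorem coeff_etaProd {m M : ℕ} (h : m ≤ M) :
    ModularCurve.etaProd.coeff m = (etaPart M).coeff m := by
  have hprod : HasProd (fun n : ℕ => (1 : PowerSeries ℤ) - PowerSeries.X ^ (n + 1))
      ModularCurve.etaProd :=
    (PowerSeries.WithPiTopology.multipliable_one_sub_X_pow ℤ).hasProd
  have h1 : Tendsto (fun M' : ℕ => (etaPart M').coeff m) atTop
      (𝓝 (ModularCurve.etaProd.coeff m)) :=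
    ((PowerSeries.WithPiTopology.continuous_coeff ℤ m).tendsto _).comp hprod.tendsto_prod_nat
  have h2 : Tendsto (fun M' : ℕ => (etaPart M').coeff m) atTop (𝓝 ((etaPart M).coeff m)) := by
    refine tendsto_const_nhds.congr' ?_
    filter_upwards [eventually_ge_atTop M] with M' hM'
    exact (coeff_etaPart_of_le h hM').symm
  exact tendsto_nhds_unique h1 h2

/-! ### The analytic partial products -/

/-- The analytic eta product `∏ (1 - q ^ (n + 1))` on the unit disc. -/
def gFun : ℂ → ℂ := fun q => ∏' n : ℕ, (1 - q ^ (n + 1))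

/-- Its finite partial products. -/
def gPart (M : ℕ) : ℂ → ℂ := fun q => ∏ n ∈ Finset.range M, (1 - q ^ (n + 1))

theorem differentiable_gPart (M : ℕ) : Differentiable ℂ (gPart M) := by
  unfold gPart
  fun_prop

theorem taylorPS_gPart (M : ℕ) :
    taylorPS (gPart M) = (etaPart M).map (Int.castRingHom ℂ) := by
  have h1 : gPart M = ∏ n ∈ Finset.range M, ((1 : ℂ → ℂ) - (fun q : ℂ => q) ^ (n + 1)) := by
    funext q
    simp [gPart, Finset.prod_apply]
  have hid : AnalyticAt ℂ (fun q : ℂ => q) 0 := analyticAt_id
  have h1' : AnalyticAt ℂ (1 : ℂ → ℂ) 0 := analyticAt_const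
  rw [h1, taylorPS_prod (Finset.range M)
    (fun n => (1 : ℂ → ℂ) - (fun q : ℂ => q) ^ (n + 1)) fun n _ => h1'.sub (hid.pow (n + 1)),
    etaPart, map_prod]
  refine Finset.prod_congr rfl fun n _ => ?_
  rw [taylorPS_sub h1' (hid.pow (n + 1)), taylorPS_one, taylorPS_pow hid, taylorPS_id]
  simp

theorem tendstoLocallyUniformlyOn_gPart :
    TendstoLocallyUniformlyOn gPart gFun atTop (Metric.ball (0 : ℂ) 1) := by
  have h : TendstoLocallyUniformlyOn
      (fun (s : Finset ℕ) (q : ℂ) => ∏ i ∈ s, (1 - q ^ (i + 1)))
      (fun q => ∏' i : ℕ, (1 - q ^ (i + 1))) atTop (Metric.ball (0 : ℂ) 1) :=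
    multipliableLocallyUniformlyOn_one_sub_pow.hasProdLocallyUniformlyOn
  intro u hu x hx
  obtain ⟨t, ht, h'⟩ := h u hu x hx
  exact ⟨t, ht, Filter.tendsto_finset_range.eventually h'⟩

theorem differentiableOn_gFun : DifferentiableOn ℂ gFun (Metric.ball (0 : ℂ) 1) :=
  differentiableOn_tprod_one_sub_pow

theorem analyticAt_gFun : AnalyticAt ℂ gFun 0 :=
  differentiableOn_gFun.analyticAt (Metric.ball_mem_nhds 0 one_pos)

/-- The Taylor series of the analytic eta product is the formal eta product. -/
theorem taylorPS_gFun : taylorPS gFun = ModularCurve.etaProd.map (Int.castRingHom ℂ) := by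
  ext m
  have h1 := tendsto_coeff_taylorPS Metric.isOpen_ball (Metric.mem_ball_self one_pos)
    tendstoLocallyUniformlyOn_gPart (fun M => (differentiable_gPart M).differentiableOn) m
  have h2 : Tendsto (fun M : ℕ => (taylorPS (gPart M)).coeff m) atTop
      (𝓝 ((ModularCurve.etaProd.map (Int.castRingHom ℂ)).coeff m)) := by
    refine tendsto_const_nhds.congr' ?_
    filter_upwards [eventually_ge_atTop m] with M hM
    rw [taylorPS_gPart, PowerSeries.coeff_map, PowerSeries.coeff_map, coeff_etaProd hM]
  exact tendsto_nhds_unique h1 h2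

/-- **(B2)** The `q`-expansion of the modular discriminant is `X * etaProd ^ 24`. -/
theorem qExpansion_discriminant :
    qExpansion 1 ModularForm.discriminant =
      PowerSeries.X * (ModularCurve.etaProd ^ 24).map (Int.castRingHom ℂ) := by
  have hev : cuspFunction 1 ModularForm.discriminant =ᶠ[𝓝 0]
      (fun q : ℂ => q) * gFun ^ 24 := by
    filter_upwards [Metric.ball_mem_nhds (0 : ℂ) one_pos] with q hq
    rw [discriminant_cuspFunction_eqOn hq]
    simp only [Pi.mul_apply, Pi.pow_apply, gFun]
    rw [(multipliable_one_sub_pow (by simpa using hq)).tprod_pow 24]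
  have hid : AnalyticAt ℂ (fun q : ℂ => q) 0 := analyticAt_id
  rw [qExpansion_eq_taylorPS, taylorPS_congr hev,
    taylorPS_mul hid (analyticAt_gFun.pow 24), taylorPS_id, taylorPS_pow analyticAt_gFun,
    taylorPS_gFun, map_pow]

end Fermat.Agent.S24.H76

end
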