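import Mathlib
import Fermat.Prelude.Def_ModularCurve_X0
import Fermat.Prelude.Def_ModularCurve_JqCoeff
import Fermat.Agent.S24.H76.JBridge

/-!
# The analytic `j`-function and its `q`-expansion

`jFun τ = E₄ τ ^ 3 / Δ τ` is holomorphic and `SL(2, ℤ)`-invariant on the upper half plane, and
`q · jFun` is given by the convergent power series with coefficients `jNum` (the Prelude's formal
`j`-numerator), i.e. the Laurent expansion of `jFun` at `i∞` is the Prelude's `jqModC ℂ`.
-/

set_option autoImplicit false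

noncomputable section

namespace Fermat.Agent.S24.H76

open Filter Topology UpperHalfPlane ModularForm ModularFormClass EisensteinSeries MatrixGroups
open ModularCurve Function
open scoped Manifold

local notation "𝕢" => Function.Periodic.qParam

/-- The analytic `j`-function `E₄³ / Δ` on the upper half plane. -/
def jFun (τ : ℍ) : ℂ := E₄ τ ^ 3 / ModularForm.discriminant τ

theorem jFun_apply (τ : ℍ) : jFun τ = E₄ τ ^ 3 / ModularForm.discriminant τ := rfl

/-! ### Holomorphy, invariance, periodicity -/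

theorem mdifferentiable_jFun : MDiff jFun := by
  rw [UpperHalfPlane.mdifferentiable_iff]
  have h4 := UpperHalfPlane.mdifferentiable_iff.1 (ModularFormClass.holo E₄)
  have hΔ := UpperHalfPlane.mdifferentiable_iff.1 (ModularFormClass.holo CuspForm.discriminant)
  have : jFun ∘ ofComplex = fun z => (⇑E₄ ∘ ofComplex) z ^ 3 /
      (⇑CuspForm.discriminant ∘ ofComplex) z := by
    funext z
    simp [jFun]
  rw [this]
  refine (h4.pow 3).div hΔ fun z _ => ?_
  simpa using discriminant_ne_zero (ofComplex z)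

theorem jFun_smul (γ : SL(2, ℤ)) (τ : ℍ) : jFun (γ • τ) = jFun τ := by
  have hγ : Matrix.SpecialLinearGroup.mapGL ℝ γ ∈ 𝒮ℒ := ⟨γ, rfl⟩
  have h4 := SlashInvariantForm.slash_action_eqn'' E₄ hγ τ
  have hΔ := SlashInvariantForm.slash_action_eqn'' CuspForm.discriminant hγ τ
  have hd : denom (Matrix.SpecialLinearGroup.mapGL ℝ γ) τ ≠ 0 := denom_ne_zero _ _
  have hD : ModularForm.discriminant τ ≠ 0 := discriminant_ne_zero τ
  have e : γ • τ = Matrix.SpecialLinearGroup.mapGL ℝ γ • τ := rfl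
  rw [CuspForm.coe_discriminant] at hΔ
  rw [jFun, jFun, e, h4, hΔ]
  have h12 : denom (Matrix.SpecialLinearGroup.mapGL ℝ γ) τ ^ (12 : ℤ) =
      (denom (Matrix.SpecialLinearGroup.mapGL ℝ γ) τ ^ (4 : ℤ)) ^ 3 := by
    rw [← zpow_natCast, ← zpow_mul]
    norm_num
  rw [h12]
  have hd4 : denom (Matrix.SpecialLinearGroup.mapGL ℝ γ) τ ^ (4 : ℤ) ≠ 0 := zpow_ne_zero _ hd
  field_simp

theorem periodic_jFun : Periodic (jFun ∘ ofComplex) 1 := by
  have h4 := SlashInvariantFormClass.periodic_comp_ofComplex E₄ one_mem_strictPeriods_SL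
  have hΔ := SlashInvariantFormClass.periodic_comp_ofComplex CuspForm.discriminant
    one_mem_strictPeriods_SL
  intro z
  have e4 := h4 z
  have eΔ := hΔ z
  simp only [comp_apply, CuspForm.coe_discriminant] at e4 eΔ ⊢
  rw [jFun, jFun]
  push_cast at e4 eΔ ⊢
  rw [e4, eΔ]

/-! ### The `q`-expansion -/

/-- The cusp function of `E₄`. -/
def e4Cusp : ℂ → ℂ := cuspFunction 1 E₄

theorem differentiableOn_e4Cusp : DifferentiableOn ℂ e4Cusp (Metric.ball 0 1) := fun q hq =>
  (ModularFormClass.differentiableAt_cuspFunction E₄ one_pos one_mem_strictPeriods_SL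
    (by simpa using hq)).differentiableWithinAt

theorem e4Cusp_qParam (τ : ℍ) : e4Cusp (𝕢 1 τ) = E₄ τ :=
  SlashInvariantFormClass.eq_cuspFunction E₄ τ one_mem_strictPeriods_SL one_ne_zero

theorem taylorPS_e4Cusp : taylorPS e4Cusp = ModularCurve.eisenstein4.map (Int.castRingHom ℂ) := by
  rw [e4Cusp, ← qExpansion_eq_taylorPS, qExpansion_E4]

theorem gFun_zero : gFun 0 = 1 := by
  simp [gFun]

theorem gFun_qParam (τ : ℍ) : gFun (𝕢 1 τ) = ∏' n : ℕ, (1 - eta_q n τ) := rfl

theorem gFun_ne_zero {q : ℂ} (hq : ‖q‖ < 1) : gFun q ≠ 0 := by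
  rcases eq_or_ne q 0 with rfl | hq0
  · rw [gFun_zero]
    exact one_ne_zero
  · have him := Function.Periodic.im_invQParam_pos_of_norm_lt_one one_pos hq hq0
    have h1 := gFun_qParam ⟨_, him⟩
    rw [show ((⟨_, him⟩ : ℍ) : ℂ) = Function.Periodic.invQParam 1 q from rfl,
      Function.Periodic.qParam_right_inv one_ne_zero hq0] at h1
    rw [h1]
    exact eta_tprod_ne_zero him

/-- The function `q ↦ E₄(q)³ / ∏ (1 - qⁿ)²⁴` on the unit disc; it equals `q · j`. -/
def jNumFun : ℂ → ℂ := fun q => e4Cusp q ^ 3 / gFun q ^ 24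

theorem differentiableOn_jNumFun : DifferentiableOn ℂ jNumFun (Metric.ball 0 1) :=
  (differentiableOn_e4Cusp.pow 3).div (differentiableOn_gFun.pow 24) fun q hq =>
    pow_ne_zero _ (gFun_ne_zero (by simpa using hq))

theorem jNumFun_qParam (τ : ℍ) : jNumFun (𝕢 1 τ) = 𝕢 1 τ * jFun τ := by
  have hq0 : 𝕢 1 (τ : ℂ) ≠ 0 := Function.Periodic.qParam_ne_zero _
  have hg : gFun (𝕢 1 τ) ≠ 0 :=
    gFun_ne_zero (Function.Periodic.norm_qParam_lt_one one_pos τ.im_pos)
  have hΔ : ModularForm.discriminant τ = 𝕢 1 τ * gFun (𝕢 1 τ) ^ 24 := by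
    rw [discriminant_eq_q_prod, gFun_qParam,
      (multipliableLocallyUniformlyOn_eta.multipliable τ.2).tprod_pow 24]
  rw [jNumFun, jFun, e4Cusp_qParam, hΔ]
  field_simp

theorem taylorPS_jNumFun : taylorPS jNumFun = ModularCurve.jNum.map (Int.castRingHom ℂ) := by
  have hball : Metric.ball (0 : ℂ) 1 ∈ 𝓝 (0 : ℂ) := Metric.ball_mem_nhds 0 one_pos
  have hJ : AnalyticAt ℂ jNumFun 0 := differentiableOn_jNumFun.analyticAt hball
  have hE : AnalyticAt ℂ e4Cusp 0 := differentiableOn_e4Cusp.analyticAt hball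
  have hev : jNumFun * gFun ^ 24 =ᶠ[𝓝 0] e4Cusp ^ 3 := by
    filter_upwards [hball] with q hq
    have hg : gFun q ^ 24 ≠ 0 := pow_ne_zero _ (gFun_ne_zero (by simpa using hq))
    simp only [Pi.mul_apply, Pi.pow_apply, jNumFun]
    exact div_mul_cancel₀ _ hg
  have h1 := taylorPS_congr hev
  rw [taylorPS_mul hJ (analyticAt_gFun.pow 24), taylorPS_pow analyticAt_gFun, taylorPS_gFun,
    taylorPS_pow hE, taylorPS_e4Cusp, ← map_pow, ← map_pow] at h1
  have h2 : (ModularCurve.etaProd ^ 24).map (Int.castRingHom ℂ) *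
      ModularCurve.dedekindEtaUnitInv.map (Int.castRingHom ℂ) = 1 := by
    rw [← map_mul]
    have := ModularCurve.dedekindEtaUnit_mul_inv
    rw [ModularCurve.dedekindEtaUnit] at this
    rw [this, map_one]
  calc taylorPS jNumFun
      = taylorPS jNumFun * ((ModularCurve.etaProd ^ 24).map (Int.castRingHom ℂ) *
          ModularCurve.dedekindEtaUnitInv.map (Int.castRingHom ℂ)) := by rw [h2, mul_one]
    _ = (ModularCurve.eisenstein4 ^ 3).map (Int.castRingHom ℂ) *
          ModularCurve.dedekindEtaUnitInv.map (Int.castRingHom ℂ) := by rw [← mul_assoc, h1]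
    _ = ModularCurve.jNum.map (Int.castRingHom ℂ) := by rw [ModularCurve.jNum, map_mul]

/-- **(B4)** `q · j(τ) = ∑ₙ jNumₙ qⁿ`: the Laurent expansion of the analytic `j`-function at `i∞`
is the Prelude's formal `jq`. -/
theorem hasSum_jFun (τ : ℍ) :
    HasSum (fun n : ℕ => ((ModularCurve.jNum.coeff n : ℤ) : ℂ) * 𝕢 1 τ ^ n) (𝕢 1 τ * jFun τ) := by
  have hq : 𝕢 1 (τ : ℂ) ∈ Metric.ball (0 : ℂ) 1 := by
    simpa using Function.Periodic.norm_qParam_lt_one one_pos τ.im_pos
  have h := hasSum_taylorPS differentiableOn_jNumFun hq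
  rw [jNumFun_qParam, taylorPS_jNumFun] at h
  simpa using h

/-- The function `τ ↦ q · j(τ)`, which is holomorphic at `i∞`. -/
def qjFun (τ : ℍ) : ℂ := 𝕢 1 τ * jFun τ

theorem hasSum_qjFun (τ : ℍ) :
    HasSum (fun n : ℕ => ((ModularCurve.jNum.coeff n : ℤ) : ℂ) • 𝕢 1 τ ^ n) (qjFun τ) := by
  simpa [qjFun, smul_eq_mul] using hasSum_jFun τ

theorem isBoundedAtImInfty_qjFun : IsBoundedAtImInfty qjFun :=
  isBoundedAtImInfty_of_hasSum_qExpansion one_pos hasSum_qjFun

theorem mdifferentiable_qjFun : MDiff qjFun := by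
  rw [UpperHalfPlane.mdifferentiable_iff]
  have hj := UpperHalfPlane.mdifferentiable_iff.1 mdifferentiable_jFun
  have h1 : DifferentiableOn ℂ (fun z : ℂ => 𝕢 1 z * (jFun ∘ ofComplex) z) {z | 0 < z.im} :=
    (Function.Periodic.differentiable_qParam.differentiableOn).mul hj
  refine h1.congr fun z hz => ?_
  simp only [comp_apply, qjFun]
  rw [ofComplex_apply_of_im_pos hz]

theorem qParam_add_one (w : ℂ) : 𝕢 1 (w + 1) = 𝕢 1 w := by
  simp only [Function.Periodic.qParam, Complex.ofReal_one, div_one, mul_add, mul_one,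
    Complex.exp_add, Complex.exp_two_pi_mul_I]

theorem periodic_qjFun : Periodic (qjFun ∘ ofComplex) 1 := by
  intro w
  by_cases hw : 0 < w.im
  · have hw' : 0 < (w + 1).im := by simpa using hw
    have hj := periodic_jFun w
    simp only [comp_apply] at hj ⊢
    rw [qjFun, qjFun, hj, ofComplex_apply_of_im_pos hw', ofComplex_apply_of_im_pos hw]
    congr 1
    exact qParam_add_one w
  · have hw1 : w.im ≤ 0 := not_lt.1 hw
    have hw' : (w + 1).im ≤ 0 := by simpa using hw1
    simp only [comp_apply]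
    rw [ofComplex_apply_of_im_nonpos hw', ofComplex_apply_of_im_nonpos hw1]

theorem periodic_qjFun' : Periodic (qjFun ∘ ofComplex) ((1 : ℝ) : ℂ) := by
  simpa using periodic_qjFun

theorem analyticAt_cuspFunction_qjFun : AnalyticAt ℂ (cuspFunction 1 qjFun) 0 :=
  UpperHalfPlane.analyticAt_cuspFunction_zero one_pos periodic_qjFun' mdifferentiable_qjFun
    isBoundedAtImInfty_qjFun

theorem analyticAt_jNumFun : AnalyticAt ℂ jNumFun 0 :=
  differentiableOn_jNumFun.analyticAt (Metric.ball_mem_nhds 0 one_pos)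

theorem cuspFunction_qjFun_eventuallyEq : cuspFunction 1 qjFun =ᶠ[𝓝 0] jNumFun := by
  have hball : Metric.ball (0 : ℂ) 1 ∈ 𝓝 (0 : ℂ) := Metric.ball_mem_nhds 0 one_pos
  rw [← analyticAt_cuspFunction_qjFun.continuousAt.eventuallyEq_nhds_iff_eventuallyEq_nhdsNE
    analyticAt_jNumFun.continuousAt]
  filter_upwards [nhdsWithin_le_nhds hball, self_mem_nhdsWithin] with q hq hq0
  have hq1 : ‖q‖ < 1 := by simpa using hq
  have him := Function.Periodic.im_invQParam_pos_of_norm_lt_one one_pos hq1 hq0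
  have h1 := UpperHalfPlane.eq_cuspFunction ⟨_, him⟩ one_ne_zero periodic_qjFun'
  have h2 := jNumFun_qParam ⟨_, him⟩
  have e : 𝕢 1 ((⟨_, him⟩ : ℍ) : ℂ) = q := Function.Periodic.qParam_right_inv one_ne_zero hq0
  rw [e] at h1 h2
  rw [h1, h2, qjFun, e]

/-- The `q`-expansion of `q · j` is the Prelude's formal `j`-numerator `jNum`. -/
theorem qExpansion_qjFun : qExpansion 1 qjFun = ModularCurve.jNum.map (Int.castRingHom ℂ) := by
  rw [qExpansion_eq_taylorPS, taylorPS_congr cuspFunction_qjFun_eventuallyEq, taylorPS_jNumFun]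

theorem jNumFun_zero : jNumFun 0 = 1 := by
  have h := coeff_taylorPS jNumFun 0
  rw [taylorPS_jNumFun] at h
  simpa using h.symm

/-- `q · j(τ) → 1` at `i∞`: the `j`-function has a simple pole with residue `1` in `q`. -/
theorem tendsto_qjFun : Tendsto qjFun atImInfty (𝓝 1) := by
  have hcomp : qjFun = jNumFun ∘ fun τ : ℍ ↦ 𝕢 1 τ := by
    funext τ
    simp [qjFun, jNumFun_qParam]
  have ht := analyticAt_jNumFun.continuousAt.tendsto.comp
    (UpperHalfPlane.qParam_tendsto_atImInfty one_pos)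
  rw [jNumFun_zero] at ht
  rw [hcomp]
  exact ht

/-- The coefficients of the Prelude's Laurent series `jqModC ℂ` in terms of `jNum`. -/
theorem coeff_jqModC_natCast_sub_one (n : ℕ) :
    (ModularCurve.jqModC ℂ).coeff ((n : ℤ) - 1) = ((ModularCurve.jNum.coeff n : ℤ) : ℂ) := by
  rw [ModularCurve.jqModC, HahnSeries.coeff_single_mul, one_mul, sub_neg_eq_add,
    sub_add_cancel, HahnSeries.ofPowerSeries_apply_coeff, PowerSeries.coeff_map]
  simp

/-- **(B4, Laurent form)** `j(τ) = ∑_{m ≥ -1} c(m) q^m` with `c` the coefficients of the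
Prelude's `jqModC ℂ`. -/
theorem hasSum_jFun_laurent (τ : ℍ) :
    HasSum (fun n : ℕ => (ModularCurve.jqModC ℂ).coeff ((n : ℤ) - 1) * 𝕢 1 τ ^ ((n : ℤ) - 1))
      (jFun τ) := by
  have hq0 : 𝕢 1 (τ : ℂ) ≠ 0 := Function.Periodic.qParam_ne_zero _
  have h := (hasSum_jFun τ).mul_left (𝕢 1 (τ : ℂ))⁻¹
  rw [inv_mul_cancel_left₀ hq0] at h
  refine h.congr_fun ?_ |>.mono_left le_rfl
  intro n
  rw [coeff_jqModC_natCast_sub_one, zpow_sub₀ hq0, zpow_natCast, zpow_one]
  field_simp

end Fermat.Agent.S24.H76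

end
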